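import Fermat.Agent.Lib.Herbrand.PrimeCyclic

/-!
# Herbrand quotient for a cyclic group of prime order: multiplicative form

`G` a commutative group which is finitely generated (`Module.Finite ℤ (Additive G)`),
`s : G →* G` with `s^[p] = id`, `p` prime.  With `twistHom s x = s x / x` and
`normHom p s x = ∏ i < p, s^[i] x`:

  `[ker twist : im norm] * p ^ b = p ^ a * [ker norm : im twist]`,

`a = rank (ker twist)`, `a + (p - 1) * b = rank G`, both indices finite.
-/

set_option autoImplicit false

open Module Finset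

namespace Fermat.Agent.Herbrand

variable {G : Type*} [CommGroup G]

/-- `x ↦ s x / x`. -/
def twistHom (s : G →* G) : G →* G where
  toFun x := s x / x
  map_one' := by simp
  map_mul' x y := by
    rw [map_mul]
    exact mul_div_mul_comm _ _ _ _

@[simp] theorem twistHom_apply (s : G →* G) (x : G) : twistHom s x = s x / x := rfl

/-- `x ↦ ∏ i < p, s^[i] x`. -/
def normHom (p : ℕ) (s : G →* G) : G →* G where
  toFun x := ∏ i ∈ range p, s^[i] x
  map_one' := by simp [iterate_map_one]
  map_mul' x y := by
    simp only [iterate_map_mul]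
    exact Finset.prod_mul_distrib

@[simp] theorem normHom_apply (p : ℕ) (s : G →* G) (x : G) :
    normHom p s x = ∏ i ∈ range p, s^[i] x := rfl

theorem mem_ker_twistHom {s : G →* G} {x : G} : x ∈ (twistHom s).ker ↔ s x = x := by
  rw [MonoidHom.mem_ker, twistHom_apply, div_eq_one]

/-- The additive endomorphism attached to `s`. -/
noncomputable def addEnd (s : G →* G) : Module.End ℤ (Additive G) :=
  (MonoidHom.toAdditive s).toIntLinearMap

@[simp] theorem addEnd_apply (s : G →* G) (x : Additive G) :
    addEnd s x = Additive.ofMul (s x.toMul) := rfl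

theorem addEnd_pow_apply (s : G →* G) (i : ℕ) (x : Additive G) :
    (addEnd s ^ i) x = Additive.ofMul (s^[i] x.toMul) := by
  induction i generalizing x with
  | zero => simp
  | succ n ih =>
    rw [pow_succ, Module.End.mul_apply, ih, Function.iterate_succ_apply]
    rfl

theorem addEnd_pow_eq_one {p : ℕ} {s : G →* G} (hs : ∀ x, s^[p] x = x) : addEnd s ^ p = 1 := by
  ext x
  rw [addEnd_pow_apply, hs]
  rfl

theorem addEnd_sub_one_apply (s : G →* G) (x : Additive G) :
    (addEnd s - 1) x = Additive.ofMul (twistHom s x.toMul) := by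
  rw [LinearMap.sub_apply, Module.End.one_apply, addEnd_apply, twistHom_apply, ofMul_div]
  rfl

theorem normEnd_addEnd_apply (p : ℕ) (s : G →* G) (x : Additive G) :
    normEnd p (addEnd s) x = Additive.ofMul (normHom p s x.toMul) := by
  rw [normEnd, LinearMap.sum_apply, normHom_apply, ofMul_prod]
  exact Finset.sum_congr rfl fun i _ => addEnd_pow_apply s i x

theorem ker_addEnd_sub_one (s : G →* G) :
    (LinearMap.ker (addEnd s - 1)).toAddSubgroup = Subgroup.toAddSubgroup (twistHom s).ker := by
  ext x
  rw [Submodule.mem_toAddSubgroup, LinearMap.mem_ker, addEnd_sub_one_apply,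
    Additive.mem_toAddSubgroup, MonoidHom.mem_ker]
  exact Iff.rfl

theorem ker_normEnd_addEnd (p : ℕ) (s : G →* G) :
    (LinearMap.ker (normEnd p (addEnd s))).toAddSubgroup =
      Subgroup.toAddSubgroup (normHom p s).ker := by
  ext x
  rw [Submodule.mem_toAddSubgroup, LinearMap.mem_ker, normEnd_addEnd_apply,
    Additive.mem_toAddSubgroup, MonoidHom.mem_ker]
  exact Iff.rfl

theorem range_addEnd_sub_one (s : G →* G) :
    ((⊤ : Submodule ℤ (Additive G)).map (addEnd s - 1)).toAddSubgroup =
      Subgroup.toAddSubgroup (twistHom s).range := by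
  ext x
  rw [Submodule.mem_toAddSubgroup, Additive.mem_toAddSubgroup, MonoidHom.mem_range]
  constructor
  · rintro ⟨y, -, rfl⟩
    exact ⟨y.toMul, by rw [addEnd_sub_one_apply]; rfl⟩
  · rintro ⟨y, hy⟩
    exact ⟨Additive.ofMul y, Submodule.mem_top, by rw [addEnd_sub_one_apply]; exact congrArg _ hy⟩

theorem range_normEnd_addEnd (p : ℕ) (s : G →* G) :
    ((⊤ : Submodule ℤ (Additive G)).map (normEnd p (addEnd s))).toAddSubgroup =
      Subgroup.toAddSubgroup (normHom p s).range := by
  ext x
  rw [Submodule.mem_toAddSubgroup, Additive.mem_toAddSubgroup, MonoidHom.mem_range]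
  constructor
  · rintro ⟨y, -, rfl⟩
    exact ⟨y.toMul, by rw [normEnd_addEnd_apply]; rfl⟩
  · rintro ⟨y, hy⟩
    exact ⟨Additive.ofMul y, Submodule.mem_top, by rw [normEnd_addEnd_apply]; exact congrArg _ hy⟩

theorem hqL_addEnd_sub_one (p : ℕ) (s : G →* G) :
    hqL (addEnd s - 1) (normEnd p (addEnd s)) ⊤ =
      (normHom p s).range.relIndex (twistHom s).ker := by
  rw [hqL, top_inf_eq, range_normEnd_addEnd, ker_addEnd_sub_one, Subgroup.relIndex_toAddSubgroup]

theorem hqL_normEnd_addEnd (p : ℕ) (s : G →* G) :
    hqL (normEnd p (addEnd s)) (addEnd s - 1) ⊤ =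
      (twistHom s).range.relIndex (normHom p s).ker := by
  rw [hqL, top_inf_eq, range_addEnd_sub_one, ker_normEnd_addEnd, Subgroup.relIndex_toAddSubgroup]

/-- The kernel of `addEnd s - 1` is (linearly equivalent to) `Additive` of the subgroup of
fixed points. -/
noncomputable def kerEquiv (s : G →* G) :
    LinearMap.ker (addEnd s - 1) ≃ₗ[ℤ] Additive (twistHom s).ker :=
  AddEquiv.toIntLinearEquiv
    { toFun := fun x => Additive.ofMul ⟨(x : Additive G).toMul, by
        have := x.2
        rw [LinearMap.mem_ker, addEnd_sub_one_apply] at this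
        exact this⟩
      invFun := fun y => ⟨Additive.ofMul (y.toMul : G), by
        rw [LinearMap.mem_ker, addEnd_sub_one_apply]
        exact y.toMul.2⟩
      left_inv := fun x => rfl
      right_inv := fun y => rfl
      map_add' := fun x y => rfl }

theorem finrank_ker_addEnd_sub_one (s : G →* G) :
    finrank ℤ (LinearMap.ker (addEnd s - 1)) = finrank ℤ (Additive (twistHom s).ker) :=
  (kerEquiv s).finrank_eq

/-- **Herbrand quotient for a cyclic group of prime order**, multiplicative form. -/
theorem herbrand_prime_cyclic_mul [Module.Finite ℤ (Additive G)] {p : ℕ} [Fact p.Prime]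
    (s : G →* G) (hs : ∀ x, s^[p] x = x) :
    ∃ b : ℕ, finrank ℤ (Additive (twistHom s).ker) + (p - 1) * b = finrank ℤ (Additive G) ∧
      (normHom p s).range.relIndex (twistHom s).ker * p ^ b =
        p ^ finrank ℤ (Additive (twistHom s).ker) *
          (twistHom s).range.relIndex (normHom p s).ker ∧
      (normHom p s).range.relIndex (twistHom s).ker ≠ 0 ∧
      (twistHom s).range.relIndex (normHom p s).ker ≠ 0 := by
  obtain ⟨b, hb, hkey, h0, h1⟩ :=
    herbrand_prime_cyclic_hqL (p := p) (σ := addEnd s) (addEnd_pow_eq_one hs)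
  rw [hqL_addEnd_sub_one, hqL_normEnd_addEnd, finrank_ker_addEnd_sub_one] at hkey
  rw [hqL_addEnd_sub_one] at h0
  rw [hqL_normEnd_addEnd] at h1
  rw [finrank_ker_addEnd_sub_one] at hb
  exact ⟨b, hb, hkey, h0, h1⟩

end Fermat.Agent.Herbrand
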