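import Fermat.Agent.Lib.Herbrand.Index

/-!
# Herbrand quotients in index form

For two endomorphisms `f g` of an additive commutative group `A` with `f ∘ g = 0 = g ∘ f` and a
subgroup `B` stable under both, put `hq f g B = [B ∩ ker f : g B]`.  The Herbrand quotient of `B`
is `hq f g B / hq g f B`.  We prove that it is the same for two stable subgroups `B ≤ C` with
`[C : B]` finite ("Herbrand's lemma"), in the multiplicative form
`hq f g C * hq g f B = hq f g B * hq g f C`, and that it is `1` for finite groups.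
-/

set_option autoImplicit false

namespace Fermat.Agent.Herbrand

variable {A : Type*} [AddCommGroup A]

/-- `hq f g B = [B ∩ ker f : g B]` (`0` if infinite). -/
noncomputable def hq (f g : A →+ A) (B : AddSubgroup A) : ℕ :=
  (B.map g).relIndex (B ⊓ f.ker)

theorem hq_def (f g : A →+ A) (B : AddSubgroup A) :
    hq f g B = (B.map g).relIndex (B ⊓ f.ker) := rfl

theorem hq_top (f g : A →+ A) : hq f g ⊤ = g.range.relIndex f.ker := by
  rw [hq, top_inf_eq, ← AddMonoidHom.range_eq_map]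

theorem hq_bot (f g : A →+ A) : hq f g ⊥ = 1 := by
  rw [hq, bot_inf_eq, AddSubgroup.relIndex_bot_right]

theorem map_le_inf_ker (f g : A →+ A) (hfg : ∀ x, f (g x) = 0) {B : AddSubgroup A}
    (hgB : B.map g ≤ B) : B.map g ≤ B ⊓ f.ker := by
  refine le_inf hgB ?_
  rintro _ ⟨x, -, rfl⟩
  exact hfg x

/-- `[g C : g B] * hq f g C = hq f g B * [C ∩ ker f : B ∩ ker f]`. -/
theorem relIndex_map_mul_hq (f g : A →+ A) (hfg : ∀ x, f (g x) = 0) {B C : AddSubgroup A}
    (hBC : B ≤ C) (hgB : B.map g ≤ B) (hgC : C.map g ≤ C) :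
    (B.map g).relIndex (C.map g) * hq f g C =
      hq f g B * (B ⊓ f.ker).relIndex (C ⊓ f.ker) := by
  have h1 : B.map g ≤ C.map g := AddSubgroup.map_mono hBC
  have h2 : C.map g ≤ C ⊓ f.ker := map_le_inf_ker f g hfg hgC
  have h3 : B.map g ≤ B ⊓ f.ker := map_le_inf_ker f g hfg hgB
  have h4 : B ⊓ f.ker ≤ C ⊓ f.ker := inf_le_inf_right _ hBC
  rw [hq, hq, AddSubgroup.relIndex_mul_relIndex _ _ _ h1 h2,
    AddSubgroup.relIndex_mul_relIndex _ _ _ h3 h4]

/-- **Herbrand's lemma** (index form): if `B ≤ C` are stable under `f` and `g`, `f ∘ g = 0 = g ∘ f`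
and `[C : B]` is finite, then `hq f g C * hq g f B = hq f g B * hq g f C`. -/
theorem hq_mul_hq_of_relIndex_ne_zero (f g : A →+ A) (hfg : ∀ x, f (g x) = 0)
    (hgf : ∀ x, g (f x) = 0) {B C : AddSubgroup A} (hBC : B ≤ C)
    (hfB : B.map f ≤ B) (hgB : B.map g ≤ B) (hfC : C.map f ≤ C) (hgC : C.map g ≤ C)
    (hfin : B.relIndex C ≠ 0) :
    hq f g C * hq g f B = hq f g B * hq g f C := by
  have e1 := relIndex_map_mul_hq f g hfg hBC hgB hgC
  have e2 := relIndex_map_mul_hq g f hgf hBC hfB hfC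
  have i1 := relIndex_eq_map_mul_ker f B C hBC
  have i2 := relIndex_eq_map_mul_ker g B C hBC
  have key : B.relIndex C * (hq f g C * hq g f B) = B.relIndex C * (hq f g B * hq g f C) := by
    calc B.relIndex C * (hq f g C * hq g f B)
        = ((B.map g).relIndex (C.map g) * hq f g C) *
            (hq g f B * (B ⊓ g.ker).relIndex (C ⊓ g.ker)) := by rw [i2]; ring
      _ = (hq f g B * (B ⊓ f.ker).relIndex (C ⊓ f.ker)) *
            ((B.map f).relIndex (C.map f) * hq g f C) := by rw [e1, e2]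
      _ = B.relIndex C * (hq f g B * hq g f C) := by rw [i1]; ring
  exact Nat.eq_of_mul_eq_mul_left (Nat.pos_of_ne_zero hfin) key

/-- Under the hypotheses of Herbrand's lemma, `hq f g C` is finite iff `hq f g B` is. -/
theorem hq_ne_zero_iff_of_relIndex_ne_zero (f g : A →+ A) (hfg : ∀ x, f (g x) = 0)
    {B C : AddSubgroup A} (hBC : B ≤ C) (hgB : B.map g ≤ B) (hgC : C.map g ≤ C)
    (hfin : B.relIndex C ≠ 0) :
    hq f g C ≠ 0 ↔ hq f g B ≠ 0 := by
  have e1 := relIndex_map_mul_hq f g hfg hBC hgB hgC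
  have i1 := relIndex_eq_map_mul_ker f B C hBC
  have i2 := relIndex_eq_map_mul_ker g B C hBC
  have n1 : (B ⊓ f.ker).relIndex (C ⊓ f.ker) ≠ 0 := by
    intro h; rw [h, mul_zero] at i1; exact hfin i1
  have n2 : (B.map g).relIndex (C.map g) ≠ 0 := by
    intro h; rw [h, zero_mul] at i2; exact hfin i2
  constructor
  · intro h hB
    rw [hB, zero_mul] at e1
    exact (mul_ne_zero n2 h) e1
  · intro h hC
    rw [hC, mul_zero] at e1
    exact (mul_ne_zero h n1) e1.symm

/-- The Herbrand quotient of a finite stable subgroup is `1`. -/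
theorem hq_eq_hq_of_finite (f g : A →+ A) (hfg : ∀ x, f (g x) = 0)
    (hgf : ∀ x, g (f x) = 0) {C : AddSubgroup A} (hfC : C.map f ≤ C) (hgC : C.map g ≤ C)
    [Finite C] : hq f g C = hq g f C := by
  have hfin : (⊥ : AddSubgroup A).relIndex C ≠ 0 := by
    rw [AddSubgroup.relIndex_bot_left]
    exact Nat.card_pos.ne'
  have := hq_mul_hq_of_relIndex_ne_zero f g hfg hgf (bot_le : (⊥ : AddSubgroup A) ≤ C)
    (by simp) (by simp) hfC hgC hfin
  simpa [hq_bot] using this

theorem hq_ne_zero_of_finite (f g : A →+ A) (hfg : ∀ x, f (g x) = 0)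
    {C : AddSubgroup A} (hgC : C.map g ≤ C) [Finite C] : hq f g C ≠ 0 := by
  have hfin : (⊥ : AddSubgroup A).relIndex C ≠ 0 := by
    rw [AddSubgroup.relIndex_bot_left]
    exact Nat.card_pos.ne'
  rw [hq_ne_zero_iff_of_relIndex_ne_zero f g hfg (bot_le : (⊥ : AddSubgroup A) ≤ C)
    (by simp) hgC hfin, hq_bot]
  exact one_ne_zero

end Fermat.Agent.Herbrand
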