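import Mathlib

/-!
# Two polynomial identities for the `p`-th cyclotomic polynomial

With `N = 1 + X + ... + X^(p-1)`:
* `(X - 1)^(p-1) = N + p * g`;
* `p = h * (X - 1)^(p-1) + c * N`.
Consequently, in any ring, if `N(σ) = 0` then `(σ - 1)^(p-1)` and `p` divide each other.
-/

set_option autoImplicit false

open Polynomial Finset

namespace Fermat.Agent.Herbrand

/-- `(X - 1)^(p-1) ≡ 1 + X + ... + X^(p-1)` modulo `p`. -/
theorem exists_X_sub_one_pow_eq (p : ℕ) [hp : Fact p.Prime] :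
    ∃ g : ℤ[X], (X - 1) ^ (p - 1) = (∑ i ∈ range p, X ^ i) + C (p : ℤ) * g := by
  have key : ((X - 1) ^ (p - 1) - ∑ i ∈ range p, X ^ i : ℤ[X]).map (Int.castRingHom (ZMod p)) = 0 := by
    have h1 := cyclotomic_mul_prime_eq_pow_of_not_dvd (ZMod p) (p := p) (n := 1)
      (fun h => hp.out.one_lt.ne' (Nat.dvd_one.mp h))
    rw [one_mul, cyclotomic_one, cyclotomic_prime] at h1
    simp only [Polynomial.map_sub, Polynomial.map_pow, Polynomial.map_X, Polynomial.map_one,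
      Polynomial.map_sum]
    rw [h1, sub_self]
  have hdvd : C (p : ℤ) ∣ ((X - 1) ^ (p - 1) - ∑ i ∈ range p, X ^ i : ℤ[X]) := by
    rw [Polynomial.C_dvd_iff_dvd_coeff]
    intro n
    have := congrArg (fun q => Polynomial.coeff q n) key
    simp only [Polynomial.coeff_map, Polynomial.coeff_zero] at this
    exact (ZMod.intCast_zmod_eq_zero_iff_dvd _ p).mp (by simpa using this)
  obtain ⟨g, hg⟩ := hdvd
  exact ⟨g, by rw [← hg]; ring⟩

/-- `p` is a combination of `(X - 1)^(p-1)` and `1 + X + ... + X^(p-1)`. -/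
theorem exists_prime_eq_mul_X_sub_one_pow (p : ℕ) [hp : Fact p.Prime] :
    ∃ h c : ℤ[X], C (p : ℤ) = h * (X - 1) ^ (p - 1) + c * ∑ i ∈ range p, X ^ i := by
  have hp0 : p ≠ 0 := hp.out.ne_zero
  have hζ : IsPrimitiveRoot (Complex.exp (2 * Real.pi * Complex.I / p)) p :=
    Complex.isPrimitiveRoot_exp p hp0
  set ζ : ℂ := Complex.exp (2 * Real.pi * Complex.I / p) with hζdef
  obtain ⟨z, hz, hzeq⟩ := hζ.self_sub_one_pow_dvd_order (k := p - 1) (Nat.sub_lt hp.out.pos one_pos)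
  rw [Algebra.adjoin_singleton_eq_range_aeval] at hz
  obtain ⟨h, rfl⟩ := hz
  have hint : IsIntegral ℤ ζ := hζ.isIntegral hp.out.pos
  have hroot : aeval ζ (C (p : ℤ) - h * (X - 1) ^ (p - 1)) = 0 := by
    simp only [map_sub, map_mul, map_pow, aeval_X, map_one, aeval_C]
    have hzeq' : (p : ℂ) = (aeval ζ) h * (ζ - 1) ^ (p - 1) := hzeq
    rw [← hzeq']
    simp
  have hdvd := minpoly.isIntegrallyClosed_dvd hint hroot
  rw [← cyclotomic_eq_minpoly hζ hp.out.pos, cyclotomic_prime] at hdvd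
  obtain ⟨c, hc⟩ := hdvd
  exact ⟨h, c, by linear_combination hc⟩

/-- In a ring where `1 + σ + ... + σ^(p-1) = 0`, `(σ - 1)^(p-1)` is a multiple of `p`. -/
theorem exists_sub_one_pow_eq_prime_mul {R : Type*} [Ring R] (p : ℕ) [hp : Fact p.Prime] (σ : R)
    (hσ : ∑ i ∈ range p, σ ^ i = 0) :
    ∃ G : R, (σ - 1) ^ (p - 1) = (p : R) * G := by
  obtain ⟨g, hg⟩ := exists_X_sub_one_pow_eq p
  refine ⟨aeval σ g, ?_⟩
  have := congrArg (aeval σ) hg
  simpa [hσ] using this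

/-- In a ring where `1 + σ + ... + σ^(p-1) = 0`, `p` is a multiple of `(σ - 1)^(p-1)`. -/
theorem exists_prime_eq_mul_sub_one_pow {R : Type*} [Ring R] (p : ℕ) [hp : Fact p.Prime] (σ : R)
    (hσ : ∑ i ∈ range p, σ ^ i = 0) :
    ∃ H : R, (p : R) = H * (σ - 1) ^ (p - 1) := by
  obtain ⟨h, c, hc⟩ := exists_prime_eq_mul_X_sub_one_pow p
  refine ⟨aeval σ h, ?_⟩
  have := congrArg (aeval σ) hc
  simpa [hσ] using this

end Fermat.Agent.Herbrand
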