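import Mathlib

/-!
# Index calculus for additive subgroups (Lang's index lemma)

All statements use `AddSubgroup.relIndex` (`B.relIndex C = [C : B ⊓ C]`, `0` if infinite) and
hold without any finiteness hypothesis.
-/

set_option autoImplicit false

namespace Fermat.Agent.Herbrand

variable {A A' : Type*} [AddCommGroup A] [AddCommGroup A']

/-- For `B ≤ C` and any subgroup `K`: `[C : B] = [C + K : B + K] * [C ∩ K : B ∩ K]`. -/
theorem relIndex_eq_sup_mul_inf (B C K : AddSubgroup A) (h : B ≤ C) :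
    B.relIndex C = (B ⊔ K).relIndex (C ⊔ K) * (B ⊓ K).relIndex (C ⊓ K) := by
  have h1 : B ≤ B ⊔ (C ⊓ K) := le_sup_left
  have h2 : B ⊔ (C ⊓ K) ≤ C := sup_le h inf_le_left
  rw [← AddSubgroup.relIndex_mul_relIndex B (B ⊔ (C ⊓ K)) C h1 h2]
  have e1 : B.relIndex (B ⊔ (C ⊓ K)) = (B ⊓ K).relIndex (C ⊓ K) := by
    rw [AddSubgroup.relIndex_sup_left, ← AddSubgroup.inf_relIndex_right B (C ⊓ K)]
    congr 1
    rw [← inf_assoc, inf_eq_left.mpr h]
  have e2 : (B ⊔ (C ⊓ K)).relIndex C = (B ⊔ K).relIndex (C ⊔ K) := by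
    have hm : B ⊔ (C ⊓ K) = (B ⊔ K) ⊓ C := by
      rw [sup_inf_assoc_of_le K h, inf_comm K C]
    rw [hm, AddSubgroup.inf_relIndex_right]
    have hs : C ⊔ K = C ⊔ (B ⊔ K) := by
      rw [← sup_assoc, sup_eq_left.mpr h]
    rw [hs, AddSubgroup.relIndex_sup_right]
  rw [e1, e2, mul_comm]

/-- **Lang's index lemma**: for `B ≤ C` and a homomorphism `f`,
`[C : B] = [f C : f B] * [C ∩ ker f : B ∩ ker f]`. -/
theorem relIndex_eq_map_mul_ker (f : A →+ A') (B C : AddSubgroup A) (h : B ≤ C) :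
    B.relIndex C = (B.map f).relIndex (C.map f) * (B ⊓ f.ker).relIndex (C ⊓ f.ker) := by
  rw [AddSubgroup.relIndex_map_map]
  exact relIndex_eq_sup_mul_inf B C f.ker h

/-- If `f` is injective on `C` (i.e. `C ⊓ ker f = ⊥`), then `[f C : f B] = [C : B]` for `B ≤ C`. -/
theorem relIndex_map_map_of_inf_ker_eq_bot (f : A →+ A') (B C : AddSubgroup A) (h : B ≤ C)
    (hC : C ⊓ f.ker = ⊥) :
    (B.map f).relIndex (C.map f) = B.relIndex C := by
  rw [relIndex_eq_map_mul_ker f B C h, hC, AddSubgroup.relIndex_bot_right, mul_one]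

end Fermat.Agent.Herbrand
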