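import Fermat.Agent.Lib.Herbrand.Cyclo

/-!
# Index computations in free `ℤ`-modules of finite rank

* the index of the image of an injective endomorphism is the absolute value of its determinant;
* `[K : nK] = n ^ rank K`;
* if `1 + σ + ... + σ^(p-1) = 0` on `M` then `|det (σ - 1)| = p ^ b` with `(p - 1) * b = rank M`.
-/

set_option autoImplicit false

open Finset Module

namespace Fermat.Agent.Herbrand

section Free

variable {M : Type*} [AddCommGroup M] [Module.Free ℤ M] [Module.Finite ℤ M]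

theorem index_range_eq_natAbs_det (φ : M →ₗ[ℤ] M) (hφ : Function.Injective φ) :
    (LinearMap.range φ).toAddSubgroup.index = (LinearMap.det φ).natAbs := by
  have h := Submodule.natAbs_det_equiv (LinearMap.range φ) (LinearEquiv.ofInjective φ hφ)
  have hcomp : (LinearMap.range φ).subtype ∘ₗ
      AddMonoidHom.toIntLinearMap ((LinearEquiv.ofInjective φ hφ : M ≃ₗ[ℤ] LinearMap.range φ) :
        M →+ LinearMap.range φ) = φ := by
    ext x
    rfl
  rw [hcomp] at h
  rw [h]
  rfl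

theorem natAbs_det_sub_one_pow (p : ℕ) [hp : Fact p.Prime] (σ : Module.End ℤ M)
    (hσ : ∑ i ∈ range p, σ ^ i = 0) :
    (LinearMap.det (σ - 1)).natAbs ^ (p - 1) = p ^ finrank ℤ M := by
  obtain ⟨G, hG⟩ := exists_sub_one_pow_eq_prime_mul p σ hσ
  obtain ⟨H, hH⟩ := exists_prime_eq_mul_sub_one_pow p σ hσ
  have hdetp : LinearMap.det ((p : Module.End ℤ M)) = (p : ℤ) ^ finrank ℤ M := by
    have : (p : Module.End ℤ M) = (p : ℤ) • (1 : Module.End ℤ M) := by
      simp
    rw [this, LinearMap.det_smul, map_one, mul_one]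
  have e1 : LinearMap.det (σ - 1) ^ (p - 1) = (p : ℤ) ^ finrank ℤ M * LinearMap.det G := by
    rw [← map_pow, hG, map_mul, hdetp]
  have e2 : (p : ℤ) ^ finrank ℤ M = LinearMap.det H * LinearMap.det (σ - 1) ^ (p - 1) := by
    rw [← hdetp, hH, map_mul, map_pow]
  have d1 : (p ^ finrank ℤ M : ℕ) ∣ (LinearMap.det (σ - 1)).natAbs ^ (p - 1) := by
    rw [← Int.natAbs_pow, ← Int.natCast_dvd]
    push_cast
    exact ⟨_, e1⟩
  have d2 : (LinearMap.det (σ - 1)).natAbs ^ (p - 1) ∣ (p ^ finrank ℤ M : ℕ) := by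
    rw [← Int.natAbs_pow, ← Int.dvd_natCast]
    push_cast
    exact ⟨_, by rw [e2]; ring⟩
  exact Nat.dvd_antisymm d2 d1

theorem exists_natAbs_det_sub_one_eq (p : ℕ) [hp : Fact p.Prime] (σ : Module.End ℤ M)
    (hσ : ∑ i ∈ range p, σ ^ i = 0) :
    ∃ b : ℕ, (p - 1) * b = finrank ℤ M ∧ (LinearMap.det (σ - 1)).natAbs = p ^ b := by
  have h := natAbs_det_sub_one_pow p σ hσ
  have hp1 : p - 1 ≠ 0 := Nat.sub_ne_zero_of_lt hp.out.one_lt
  have hdvd : (LinearMap.det (σ - 1)).natAbs ∣ p ^ finrank ℤ M := by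
    rw [← h]
    exact dvd_pow_self _ hp1
  obtain ⟨b, -, hb⟩ := (Nat.dvd_prime_pow hp.out).mp hdvd
  refine ⟨b, ?_, hb⟩
  rw [hb, ← pow_mul] at h
  have := Nat.pow_right_injective hp.out.two_le h
  rw [mul_comm]; exact this

end Free

section Sub

variable {A : Type*} [AddCommGroup A]

theorem relIndex_map_eq_natAbs_det (K : Submodule ℤ A) [Module.Free ℤ K] [Module.Finite ℤ K]
    (g : A →ₗ[ℤ] A) (hg : ∀ x ∈ K, g x ∈ K) (hinj : ∀ x ∈ K, g x = 0 → x = 0) :
    (K.map g).toAddSubgroup.relIndex K.toAddSubgroup =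
      (LinearMap.det (g.restrict hg)).natAbs := by
  have hφ : Function.Injective (g.restrict hg) := by
    rw [← LinearMap.ker_eq_bot, LinearMap.ker_eq_bot']
    intro x hx
    have : g x = 0 := by
      have := congrArg Subtype.val hx
      simpa using this
    exact Subtype.ext (hinj x x.2 this)
  rw [← index_range_eq_natAbs_det (g.restrict hg) hφ, AddSubgroup.relIndex]
  congr 1
  ext x
  simp only [AddSubgroup.mem_addSubgroupOf, Submodule.mem_toAddSubgroup, Submodule.mem_map,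
    LinearMap.mem_range]
  constructor
  · rintro ⟨y, hy, hxy⟩
    exact ⟨⟨y, hy⟩, Subtype.ext hxy⟩
  · rintro ⟨y, hy⟩
    exact ⟨y, y.2, by rw [← hy]; rfl⟩

theorem relIndex_smul_eq_pow (K : Submodule ℤ A) [Module.Free ℤ K] [Module.Finite ℤ K]
    (n : ℕ) (hn : n ≠ 0) :
    (K.map ((n : ℤ) • (LinearMap.id : A →ₗ[ℤ] A))).toAddSubgroup.relIndex K.toAddSubgroup =
      n ^ finrank ℤ K := by
  have hg : ∀ x ∈ K, ((n : ℤ) • (LinearMap.id : A →ₗ[ℤ] A)) x ∈ K := by
    intro x hx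
    simpa using K.smul_mem (n : ℤ) hx
  have hinj : ∀ x ∈ K, ((n : ℤ) • (LinearMap.id : A →ₗ[ℤ] A)) x = 0 → x = 0 := by
    intro x hx h
    have h' : (n : ℤ) • (⟨x, hx⟩ : K) = 0 := Subtype.ext (by simpa using h)
    have hn' : (n : ℤ) ≠ 0 := by exact_mod_cast hn
    have := (smul_eq_zero.mp h').resolve_left hn'
    exact congrArg Subtype.val this
  rw [relIndex_map_eq_natAbs_det K _ hg hinj]
  have : ((n : ℤ) • (LinearMap.id : A →ₗ[ℤ] A)).restrict hg = (n : ℤ) • (1 : Module.End ℤ K) := by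
    ext x
    simp
  rw [this, LinearMap.det_smul, map_one, mul_one, Int.natAbs_pow, Int.natAbs_natCast]

end Sub

end Fermat.Agent.Herbrand
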