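import Fermat.Agent.Lib.Herbrand.Mul

/-!
# Herbrand quotient for a cyclic group of prime order: relative multiplicative form

`G` a commutative group, `s : G →* G`, `H ≤ G` a finitely generated subgroup with `s H ≤ H` and
`s^[p] = id` on `H`.  All indices are relative indices of subgroups of `G`:

  `[H ∩ ker twist : norm H] * p ^ b = p ^ a * [H ∩ ker norm : twist H]`,

`a = rank (H ∩ ker twist)`, `a + (p - 1) * b = rank H`, both indices finite.
-/

set_option autoImplicit false

open Module Finset

namespace Fermat.Agent.Herbrand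

variable {G : Type*} [CommGroup G]

/-- The restriction of `s` to a stable subgroup. -/
def restrictHom (s : G →* G) (H : Subgroup G) (hH : ∀ x ∈ H, s x ∈ H) : H →* H :=
  (s.comp H.subtype).codRestrict H (fun x => hH x x.2)

@[simp] theorem coe_restrictHom (s : G →* G) (H : Subgroup G) (hH : ∀ x ∈ H, s x ∈ H) (x : H) :
    (restrictHom s H hH x : G) = s x := rfl

theorem coe_restrictHom_iterate (s : G →* G) (H : Subgroup G) (hH : ∀ x ∈ H, s x ∈ H) (i : ℕ)
    (x : H) : (((restrictHom s H hH)^[i] x : H) : G) = s^[i] x := by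
  induction i generalizing x with
  | zero => rfl
  | succ n ih => rw [Function.iterate_succ_apply, Function.iterate_succ_apply, ih]; rfl

theorem coe_twistHom_restrictHom (s : G →* G) (H : Subgroup G) (hH : ∀ x ∈ H, s x ∈ H) (x : H) :
    ((twistHom (restrictHom s H hH) x : H) : G) = twistHom s x := rfl

theorem coe_normHom_restrictHom (p : ℕ) (s : G →* G) (H : Subgroup G) (hH : ∀ x ∈ H, s x ∈ H)
    (x : H) : ((Fermat.Agent.Herbrand.normHom p (restrictHom s H hH) x : H) : G) =
      Fermat.Agent.Herbrand.normHom p s x := by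
  rw [Fermat.Agent.Herbrand.normHom_apply, Fermat.Agent.Herbrand.normHom_apply,
    Subgroup.val_finsetProd]
  exact Finset.prod_congr rfl fun i _ => coe_restrictHom_iterate s H hH i x

theorem map_subtype_ker_of_coe (H : Subgroup G) (f : H →* H) (g : G →* G)
    (hfg : ∀ x : H, ((f x : H) : G) = g x) :
    f.ker.map H.subtype = H ⊓ g.ker := by
  ext y
  simp only [Subgroup.mem_map, MonoidHom.mem_ker, Subgroup.mem_inf]
  constructor
  · rintro ⟨x, hx, rfl⟩
    refine ⟨x.2, ?_⟩
    have := congrArg Subtype.val hx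
    rw [hfg] at this
    exact this
  · rintro ⟨hy, hgy⟩
    refine ⟨⟨y, hy⟩, ?_, rfl⟩
    exact Subtype.ext (by rw [hfg]; exact hgy)

theorem map_subtype_range_of_coe (H : Subgroup G) (f : H →* H) (g : G →* G)
    (hfg : ∀ x : H, ((f x : H) : G) = g x) :
    f.range.map H.subtype = H.map g := by
  ext y
  simp only [Subgroup.mem_map, MonoidHom.mem_range]
  constructor
  · rintro ⟨_, ⟨x, rfl⟩, rfl⟩
    exact ⟨x, x.2, (hfg x).symm⟩
  · rintro ⟨x, hx, rfl⟩
    exact ⟨f ⟨x, hx⟩, ⟨⟨x, hx⟩, rfl⟩, hfg ⟨x, hx⟩⟩

/-- **Herbrand quotient for a cyclic group of prime order**, relative multiplicative form. -/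
theorem herbrand_prime_cyclic_mul_rel {p : ℕ} [Fact p.Prime] (s : G →* G) (H : Subgroup G)
    [Module.Finite ℤ (Additive H)] (hH : ∀ x ∈ H, s x ∈ H) (hs : ∀ x ∈ H, s^[p] x = x) :
    ∃ b : ℕ, finrank ℤ (Additive (H ⊓ (twistHom s).ker : Subgroup G)) + (p - 1) * b =
        finrank ℤ (Additive H) ∧
      (H.map (Fermat.Agent.Herbrand.normHom p s)).relIndex (H ⊓ (twistHom s).ker) * p ^ b =
        p ^ finrank ℤ (Additive (H ⊓ (twistHom s).ker : Subgroup G)) *
          (H.map (twistHom s)).relIndex (H ⊓ (Fermat.Agent.Herbrand.normHom p s).ker) ∧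
      (H.map (Fermat.Agent.Herbrand.normHom p s)).relIndex (H ⊓ (twistHom s).ker) ≠ 0 ∧
      (H.map (twistHom s)).relIndex (H ⊓ (Fermat.Agent.Herbrand.normHom p s).ker) ≠ 0 := by
  have hs' : ∀ x : H, (restrictHom s H hH)^[p] x = x := fun x =>
    Subtype.ext (by rw [coe_restrictHom_iterate]; exact hs x x.2)
  obtain ⟨b, hb, hkey, h0, h1⟩ := herbrand_prime_cyclic_mul (p := p) (restrictHom s H hH) hs'
  have hinj : Function.Injective H.subtype := Subtype.val_injective
  have k1 := map_subtype_ker_of_coe H (twistHom (restrictHom s H hH)) (twistHom s)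
    (coe_twistHom_restrictHom s H hH)
  have k2 := map_subtype_ker_of_coe H (Fermat.Agent.Herbrand.normHom p (restrictHom s H hH))
    (Fermat.Agent.Herbrand.normHom p s) (coe_normHom_restrictHom p s H hH)
  have r1 := map_subtype_range_of_coe H (twistHom (restrictHom s H hH)) (twistHom s)
    (coe_twistHom_restrictHom s H hH)
  have r2 := map_subtype_range_of_coe H (Fermat.Agent.Herbrand.normHom p (restrictHom s H hH))
    (Fermat.Agent.Herbrand.normHom p s) (coe_normHom_restrictHom p s H hH)
  have e0 : (Fermat.Agent.Herbrand.normHom p (restrictHom s H hH)).range.relIndex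
      (twistHom (restrictHom s H hH)).ker =
      (H.map (Fermat.Agent.Herbrand.normHom p s)).relIndex (H ⊓ (twistHom s).ker) := by
    rw [← r2, ← k1, Subgroup.relIndex_map_map_of_injective _ _ hinj]
  have e1 : (twistHom (restrictHom s H hH)).range.relIndex
      (Fermat.Agent.Herbrand.normHom p (restrictHom s H hH)).ker =
      (H.map (twistHom s)).relIndex (H ⊓ (Fermat.Agent.Herbrand.normHom p s).ker) := by
    rw [← r1, ← k2, Subgroup.relIndex_map_map_of_injective _ _ hinj]
  have er : finrank ℤ (Additive (twistHom (restrictHom s H hH)).ker) =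
      finrank ℤ (Additive (H ⊓ (twistHom s).ker : Subgroup G)) := by
    have m1 : (twistHom (restrictHom s H hH)).ker ≃*
        ((twistHom (restrictHom s H hH)).ker.map H.subtype) :=
      Subgroup.equivMapOfInjective _ _ hinj
    have m2 : ((twistHom (restrictHom s H hH)).ker.map H.subtype) ≃*
        (H ⊓ (twistHom s).ker : Subgroup G) := MulEquiv.subgroupCongr k1
    exact (MulEquiv.toAdditive (m1.trans m2)).toIntLinearEquiv.finrank_eq
  rw [e0, e1, er] at hkey
  rw [e0] at h0
  rw [e1] at h1
  rw [er] at hb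
  exact ⟨b, hb, hkey, h0, h1⟩

end Fermat.Agent.Herbrand
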