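import Fermat.Agent.Lib.Herbrand.PrimeCyclicFree

/-!
# Herbrand quotient of a finitely generated module over a cyclic group of prime order

`A` a finitely generated abelian group, `σ` an endomorphism with `σ ^ p = 1`, `p` prime,
`N = 1 + σ + ... + σ^(p-1)`, `D = σ - 1`.  Then

  `[ker D : im N] * p ^ b = p ^ a * [ker N : im D]`,

with `a = rank (ker D)` and `a + (p - 1) * b = rank A`, and both indices are finite.
-/

set_option autoImplicit false

open Module Finset

namespace Fermat.Agent.Herbrand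

variable {A : Type*} [AddCommGroup A]

/-- If `K ≤ L` and `m L ≤ K` for some `m ≠ 0`, then `K` and `L` have the same rank. -/
theorem finrank_eq_of_nsmul_mem {K L : Submodule ℤ A} [Module.Finite ℤ L] (hKL : K ≤ L)
    {m : ℕ} (hm : m ≠ 0) (h : ∀ x ∈ L, m • x ∈ K) : finrank ℤ K = finrank ℤ L := by
  refine le_antisymm (Submodule.finrank_mono hKL) ?_
  have h1 := finrank_map_add_finrank_inf_ker L ((m : ℤ) • (LinearMap.id : A →ₗ[ℤ] A))
  have h2 : finrank ℤ (L ⊓ LinearMap.ker ((m : ℤ) • (LinearMap.id : A →ₗ[ℤ] A)) :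
      Submodule ℤ A) = 0 := by
    refine Module.IsTorsion.finrank_eq_zero ?_
    rintro ⟨x, hx⟩
    refine ⟨⟨(m : ℤ), ?_⟩, ?_⟩
    · exact mem_nonZeroDivisors_of_ne_zero (by exact_mod_cast hm)
    · refine Subtype.ext ?_
      have := LinearMap.mem_ker.mp hx.2
      simpa using this
  have : Module.Finite ℤ K := finite_of_le hKL
  have h3 : L.map ((m : ℤ) • (LinearMap.id : A →ₗ[ℤ] A)) ≤ K := by
    rintro _ ⟨x, hx, rfl⟩
    simpa using h x hx
  rw [h2, add_zero] at h1
  rw [← h1]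
  exact Submodule.finrank_mono h3

variable [Module.Finite ℤ A]

/-- A positive integer killing the torsion of a finitely generated abelian group. -/
theorem exists_nsmul_torsion_eq_zero (A : Type*) [AddCommGroup A] [Module.Finite ℤ A] :
    ∃ m : ℕ, m ≠ 0 ∧ ∀ x : A, ∀ k : ℕ, k ≠ 0 → k • x = 0 → m • x = 0 := by
  have hT : Module.IsTorsion ℤ (Submodule.torsion ℤ A) := Submodule.torsion_isTorsion
  have : Finite (Submodule.torsion ℤ A) := Module.finite_of_fg_torsion _ hT
  refine ⟨Nat.card (Submodule.torsion ℤ A), Nat.card_pos.ne', ?_⟩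
  intro x k hk hx
  have hxT : x ∈ Submodule.torsion ℤ A := by
    rw [Submodule.mem_torsion_iff]
    exact ⟨⟨(k : ℤ), mem_nonZeroDivisors_of_ne_zero (by exact_mod_cast hk)⟩, by simpa using hx⟩
  have := card_nsmul_eq_zero' (G := Submodule.torsion ℤ A) (x := ⟨x, hxT⟩)
  exact congrArg Subtype.val this

/-- The subgroup `m A` has finite index if `m ≠ 0` and `A` is finitely generated. -/
theorem relIndex_map_smul_top_ne_zero {m : ℕ} (hm : m ≠ 0) :
    ((⊤ : Submodule ℤ A).map ((m : ℤ) • (LinearMap.id : A →ₗ[ℤ] A))).toAddSubgroup.relIndex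
      (⊤ : Submodule ℤ A).toAddSubgroup ≠ 0 := by
  rw [Submodule.top_toAddSubgroup, AddSubgroup.relIndex_top_right]
  set C := (⊤ : Submodule ℤ A).map ((m : ℤ) • (LinearMap.id : A →ₗ[ℤ] A)) with hCdef
  have hT : Module.IsTorsion ℤ (A ⧸ C) := by
    intro x
    obtain ⟨y, rfl⟩ := Submodule.Quotient.mk_surjective C x
    refine ⟨⟨(m : ℤ), mem_nonZeroDivisors_of_ne_zero (by exact_mod_cast hm)⟩, ?_⟩
    show (m : ℤ) • (Submodule.Quotient.mk y : A ⧸ C) = 0
    rw [← Submodule.Quotient.mk_smul C (m : ℤ) y, Submodule.Quotient.mk_eq_zero]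
    exact ⟨y, Submodule.mem_top, by simp⟩
  have : Finite (A ⧸ C) := Module.finite_of_fg_torsion _ hT
  have : Finite (A ⧸ C.toAddSubgroup) := this
  exact AddSubgroup.index_ne_zero_of_finite

variable {p : ℕ} [hp : Fact p.Prime] {σ : Module.End ℤ A}

include hp in
/-- **Herbrand quotient for a cyclic group of prime order `p`** acting on a finitely generated
abelian group `A` (`σ` is the action of a generator, `N` the norm, `D = σ - 1`):
`[ker D : im N] * p ^ b = p ^ a * [ker N : im D]` with `a = rank (ker D)`,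
`a + (p - 1) * b = rank A`; both indices are finite (nonzero). -/
theorem herbrand_prime_cyclic_hqL (hσ : σ ^ p = 1) :
    ∃ b : ℕ, finrank ℤ (LinearMap.ker (σ - 1)) + (p - 1) * b = finrank ℤ A ∧
      hqL (σ - 1) (normEnd p σ) ⊤ * p ^ b =
        p ^ finrank ℤ (LinearMap.ker (σ - 1)) * hqL (normEnd p σ) (σ - 1) ⊤ ∧
      hqL (σ - 1) (normEnd p σ) ⊤ ≠ 0 ∧ hqL (normEnd p σ) (σ - 1) ⊤ ≠ 0 := by
  obtain ⟨m, hm, hmT⟩ := exists_nsmul_torsion_eq_zero A
  set C := (⊤ : Submodule ℤ A).map ((m : ℤ) • (LinearMap.id : A →ₗ[ℤ] A)) with hCdef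
  have hmem : ∀ x : A, m • x ∈ C := fun x => ⟨x, Submodule.mem_top, by simp⟩
  have hCσ : ∀ x ∈ C, σ x ∈ C := by
    rintro _ ⟨x, -, rfl⟩
    refine ⟨σ x, Submodule.mem_top, ?_⟩
    simp
  have hCtf : Module.IsTorsionFree ℤ C := by
    refine Module.IsTorsionFree.of_smul_eq_zero ?_
    intro r y h
    obtain ⟨y, hy⟩ := y
    obtain ⟨x, hx, rfl⟩ := hy
    by_cases hr : r = 0
    · exact Or.inl hr
    · right
      refine Subtype.ext ?_
      have h1 : r • ((m : ℤ) • x) = 0 := by
        have := congrArg Subtype.val h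
        simpa using this
      have h2 : (r.natAbs * m) • x = 0 := by
        rcases Int.natAbs_eq r with h' | h'
        · rw [h'] at h1
          rw [mul_smul]
          simpa using h1
        · rw [h'] at h1
          rw [mul_smul]
          simpa using h1
      have h3 := hmT x (r.natAbs * m) (mul_ne_zero (Int.natAbs_ne_zero.mpr hr) hm) h2
      simpa using h3
  have hCfree : Module.Free ℤ C := inferInstance
  obtain ⟨b, hb, hkey, hn0, hn1⟩ := herbrand_prime_lattice (p := p) C hCσ hσ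
  have hfin := relIndex_map_smul_top_ne_zero (A := A) hm
  rw [← hCdef] at hfin
  have hCtop : C ≤ ⊤ := le_top
  have hDC : ∀ x ∈ C, (σ - 1) x ∈ C := fun x hx => sub_one_apply_mem_of_stable C hCσ hx
  have hNC : ∀ x ∈ C, normEnd p σ x ∈ C := fun x hx => normEnd_apply_mem_of_stable C hCσ hx
  have R2 := hqL_mul_hqL_of_relIndex_ne_zero (σ - 1) (normEnd p σ) (sub_one_mul_normEnd hσ)
    (normEnd_mul_sub_one hσ) hCtop hDC hNC (fun _ _ => Submodule.mem_top)
    (fun _ _ => Submodule.mem_top) hfin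
  have hr1 : finrank ℤ C = finrank ℤ A := by
    rw [← finrank_top ℤ A]
    exact finrank_eq_of_nsmul_mem hCtop hm (fun x _ => hmem x)
  have hr2 : finrank ℤ (C ⊓ LinearMap.ker (σ - 1) : Submodule ℤ A) =
      finrank ℤ (LinearMap.ker (σ - 1)) := by
    refine finrank_eq_of_nsmul_mem inf_le_right hm ?_
    intro x hx
    exact ⟨hmem x, Submodule.smul_of_tower_mem _ m hx⟩
  rw [hr1, hr2] at hb
  rw [hr2] at hkey
  refine ⟨b, hb, ?_, ?_, ?_⟩
  · have e : (hqL (σ - 1) (normEnd p σ) ⊤ * p ^ b) * hqL (normEnd p σ) (σ - 1) C =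
        (p ^ finrank ℤ (LinearMap.ker (σ - 1)) * hqL (normEnd p σ) (σ - 1) ⊤) *
          hqL (normEnd p σ) (σ - 1) C := by
      calc (hqL (σ - 1) (normEnd p σ) ⊤ * p ^ b) * hqL (normEnd p σ) (σ - 1) C
          = (hqL (σ - 1) (normEnd p σ) ⊤ * hqL (normEnd p σ) (σ - 1) C) * p ^ b := by ring
        _ = (hqL (σ - 1) (normEnd p σ) C * p ^ b) * hqL (normEnd p σ) (σ - 1) ⊤ := by
            rw [R2]; ring
        _ = _ := by rw [hkey]; ring
    exact Nat.eq_of_mul_eq_mul_right (Nat.pos_of_ne_zero hn1) e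
  · rw [hqL_ne_zero_iff_of_relIndex_ne_zero (σ - 1) (normEnd p σ) (sub_one_mul_normEnd hσ)
      hCtop hNC (fun _ _ => Submodule.mem_top) hfin]
    exact hn0
  · rw [hqL_ne_zero_iff_of_relIndex_ne_zero (normEnd p σ) (σ - 1) (normEnd_mul_sub_one hσ)
      hCtop hDC (fun _ _ => Submodule.mem_top) hfin]
    exact hn1

end Fermat.Agent.Herbrand
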