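import Fermat.Agent.Lib.Herbrand.Basic
import Fermat.Agent.Lib.Herbrand.Lattice

/-!
# Herbrand quotient of a lattice with an automorphism of prime order

`σ` is an endomorphism of an additive commutative group `A` with `σ ^ p = 1` (`p` prime),
`N = 1 + σ + ... + σ^(p-1)` the norm and `D = σ - 1`.  For a `σ`-stable subgroup `C` of `A` which
is free of finite rank over `ℤ` we prove

  `[C ∩ ker D : N C] * p ^ b = p ^ a * [C ∩ ker N : D C]`,

where `a = rank (C ∩ ker D)` and `a + (p - 1) * b = rank C`, and that both indices are finite.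
-/

set_option autoImplicit false

open Module Finset

namespace Fermat.Agent.Herbrand

variable {A : Type*} [AddCommGroup A]

/-- The norm element `1 + σ + ... + σ^(p-1)`. -/
def normEnd (p : ℕ) (σ : Module.End ℤ A) : Module.End ℤ A := ∑ i ∈ range p, σ ^ i

theorem normEnd_def (p : ℕ) (σ : Module.End ℤ A) : normEnd p σ = ∑ i ∈ range p, σ ^ i := rfl

theorem sub_one_mul_normEnd {p : ℕ} {σ : Module.End ℤ A} (hσ : σ ^ p = 1) :
    (σ - 1) * normEnd p σ = 0 := by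
  rw [normEnd, mul_geom_sum, hσ, sub_self]

theorem normEnd_mul_sub_one {p : ℕ} {σ : Module.End ℤ A} (hσ : σ ^ p = 1) :
    normEnd p σ * (σ - 1) = 0 := by
  rw [normEnd, geom_sum_mul, hσ, sub_self]

theorem sub_one_normEnd_apply {p : ℕ} {σ : Module.End ℤ A} (hσ : σ ^ p = 1) (x : A) :
    (σ - 1) (normEnd p σ x) = 0 := by
  have := congrArg (fun f : Module.End ℤ A => f x) (sub_one_mul_normEnd hσ)
  simpa using this

theorem normEnd_sub_one_apply {p : ℕ} {σ : Module.End ℤ A} (hσ : σ ^ p = 1) (x : A) :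
    normEnd p σ ((σ - 1) x) = 0 := by
  have := congrArg (fun f : Module.End ℤ A => f x) (normEnd_mul_sub_one hσ)
  simpa using this

theorem pow_apply_of_fixed {σ : Module.End ℤ A} {x : A} (hx : σ x = x) (i : ℕ) :
    (σ ^ i) x = x := by
  induction i with
  | zero => simp
  | succ n ih => rw [pow_succ, Module.End.mul_apply, hx, ih]

theorem normEnd_apply_of_fixed (p : ℕ) {σ : Module.End ℤ A} {x : A} (hx : σ x = x) :
    normEnd p σ x = p • x := by
  rw [normEnd, LinearMap.sum_apply]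
  simp [pow_apply_of_fixed hx]

theorem mem_ker_sub_one {σ : Module.End ℤ A} {x : A} :
    x ∈ LinearMap.ker (σ - 1) ↔ σ x = x := by
  rw [LinearMap.mem_ker, LinearMap.sub_apply, Module.End.one_apply, sub_eq_zero]

theorem normEnd_apply_of_mem_ker (p : ℕ) {σ : Module.End ℤ A} {x : A}
    (hx : x ∈ LinearMap.ker (σ - 1)) : normEnd p σ x = p • x :=
  normEnd_apply_of_fixed p (mem_ker_sub_one.mp hx)

theorem normEnd_normEnd_apply {p : ℕ} {σ : Module.End ℤ A} (hσ : σ ^ p = 1) (x : A) :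
    normEnd p σ (normEnd p σ x) = p • normEnd p σ x :=
  normEnd_apply_of_mem_ker p (LinearMap.mem_ker.mpr (sub_one_normEnd_apply hσ x))

/-- `σ` maps `ker N` to itself. -/
theorem apply_mem_ker_normEnd {p : ℕ} {σ : Module.End ℤ A} (hσ : σ ^ p = 1) {x : A}
    (hx : x ∈ LinearMap.ker (normEnd p σ)) : σ x ∈ LinearMap.ker (normEnd p σ) := by
  rw [LinearMap.mem_ker] at hx ⊢
  have h := normEnd_sub_one_apply hσ x
  rw [LinearMap.sub_apply, Module.End.one_apply, map_sub, hx, sub_zero] at h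
  exact h


/-- Submodule form of `hq`: `hqL f g B = [B ∩ ker f : g B]`. -/
noncomputable def hqL (f g : Module.End ℤ A) (B : Submodule ℤ A) : ℕ :=
  (B.map g).toAddSubgroup.relIndex (B ⊓ LinearMap.ker f).toAddSubgroup

theorem hqL_eq_hq (f g : Module.End ℤ A) (B : Submodule ℤ A) :
    hqL f g B = hq f.toAddMonoidHom g.toAddMonoidHom B.toAddSubgroup := by
  rfl

theorem hqL_mul_hqL_of_relIndex_ne_zero (f g : Module.End ℤ A) (hfg : f * g = 0)
    (hgf : g * f = 0) {B C : Submodule ℤ A} (hBC : B ≤ C)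
    (hfB : ∀ x ∈ B, f x ∈ B) (hgB : ∀ x ∈ B, g x ∈ B) (hfC : ∀ x ∈ C, f x ∈ C)
    (hgC : ∀ x ∈ C, g x ∈ C)
    (hfin : B.toAddSubgroup.relIndex C.toAddSubgroup ≠ 0) :
    hqL f g C * hqL g f B = hqL f g B * hqL g f C := by
  simp only [hqL_eq_hq]
  refine hq_mul_hq_of_relIndex_ne_zero _ _ ?_ ?_ hBC ?_ ?_ ?_ ?_ hfin
  · intro x
    exact congrArg (fun h : Module.End ℤ A => h x) hfg
  · intro x
    exact congrArg (fun h : Module.End ℤ A => h x) hgf
  · rintro _ ⟨x, hx, rfl⟩; exact hfB x hx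
  · rintro _ ⟨x, hx, rfl⟩; exact hgB x hx
  · rintro _ ⟨x, hx, rfl⟩; exact hfC x hx
  · rintro _ ⟨x, hx, rfl⟩; exact hgC x hx

theorem hqL_ne_zero_iff_of_relIndex_ne_zero (f g : Module.End ℤ A) (hfg : f * g = 0)
    {B C : Submodule ℤ A} (hBC : B ≤ C)
    (hgB : ∀ x ∈ B, g x ∈ B) (hgC : ∀ x ∈ C, g x ∈ C)
    (hfin : B.toAddSubgroup.relIndex C.toAddSubgroup ≠ 0) :
    hqL f g C ≠ 0 ↔ hqL f g B ≠ 0 := by
  simp only [hqL_eq_hq]
  refine hq_ne_zero_iff_of_relIndex_ne_zero _ _ ?_ hBC ?_ ?_ hfin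
  · intro x
    exact congrArg (fun h : Module.End ℤ A => h x) hfg
  · rintro _ ⟨x, hx, rfl⟩; exact hgB x hx
  · rintro _ ⟨x, hx, rfl⟩; exact hgC x hx


section Relative

variable {p : ℕ} {σ : Module.End ℤ A} (C : Submodule ℤ A)

theorem pow_apply_mem_of_stable (hC : ∀ x ∈ C, σ x ∈ C) (i : ℕ) {x : A} (hx : x ∈ C) :
    (σ ^ i) x ∈ C :=
  Module.End.pow_apply_mem_of_forall_mem i hC x hx

theorem normEnd_apply_mem_of_stable (hC : ∀ x ∈ C, σ x ∈ C) {x : A} (hx : x ∈ C) :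
    normEnd p σ x ∈ C := by
  rw [normEnd, LinearMap.sum_apply]
  exact C.sum_mem fun i _ => pow_apply_mem_of_stable C hC i hx

theorem sub_one_apply_mem_of_stable (hC : ∀ x ∈ C, σ x ∈ C) {x : A} (hx : x ∈ C) :
    (σ - 1) x ∈ C := by
  rw [LinearMap.sub_apply, Module.End.one_apply]
  exact C.sub_mem (hC x hx) hx

/-- `p C ≤ (C ∩ ker D) + (C ∩ ker N)`. -/
theorem smul_mem_sup (hσ : σ ^ p = 1) (hC : ∀ x ∈ C, σ x ∈ C) {x : A} (hx : x ∈ C) :
    p • x ∈ (C ⊓ LinearMap.ker (σ - 1)) ⊔ (C ⊓ LinearMap.ker (normEnd p σ)) := by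
  rw [Submodule.mem_sup]
  refine ⟨normEnd p σ x, ⟨normEnd_apply_mem_of_stable C hC hx,
    LinearMap.mem_ker.mpr (sub_one_normEnd_apply hσ x)⟩, p • x - normEnd p σ x,
    ⟨C.sub_mem (C.smul_of_tower_mem p hx) (normEnd_apply_mem_of_stable C hC hx), ?_⟩, by abel⟩
  show p • x - normEnd p σ x ∈ LinearMap.ker (normEnd p σ)
  rw [LinearMap.mem_ker, map_sub, map_nsmul, normEnd_normEnd_apply hσ, sub_self]

theorem sup_le_self :
    (C ⊓ LinearMap.ker (σ - 1)) ⊔ (C ⊓ LinearMap.ker (normEnd p σ)) ≤ C :=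
  sup_le inf_le_left inf_le_left

theorem sup_inf_ker_sub_one :
    ((C ⊓ LinearMap.ker (σ - 1)) ⊔ (C ⊓ LinearMap.ker (normEnd p σ))) ⊓ LinearMap.ker (σ - 1) =
      C ⊓ LinearMap.ker (σ - 1) :=
  le_antisymm (inf_le_inf_right _ (sup_le_self C)) (le_inf le_sup_left inf_le_right)

theorem sup_inf_ker_normEnd :
    ((C ⊓ LinearMap.ker (σ - 1)) ⊔ (C ⊓ LinearMap.ker (normEnd p σ))) ⊓
        LinearMap.ker (normEnd p σ) = C ⊓ LinearMap.ker (normEnd p σ) :=
  le_antisymm (inf_le_inf_right _ (sup_le_self C)) (le_inf le_sup_right inf_le_right)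

theorem map_normEnd_sup :
    ((C ⊓ LinearMap.ker (σ - 1)) ⊔ (C ⊓ LinearMap.ker (normEnd p σ))).map (normEnd p σ) =
      (C ⊓ LinearMap.ker (σ - 1)).map ((p : ℤ) • (LinearMap.id : A →ₗ[ℤ] A)) := by
  rw [Submodule.map_sup]
  have h2 : (C ⊓ LinearMap.ker (normEnd p σ)).map (normEnd p σ) = ⊥ := by
    rw [eq_bot_iff]
    rintro _ ⟨x, hx, rfl⟩
    exact LinearMap.mem_ker.mp hx.2
  rw [h2, sup_bot_eq]
  ext y
  simp only [Submodule.mem_map]
  constructor
  · rintro ⟨x, hx, rfl⟩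
    exact ⟨x, hx, by rw [normEnd_apply_of_mem_ker p hx.2]; simp⟩
  · rintro ⟨x, hx, rfl⟩
    exact ⟨x, hx, by rw [normEnd_apply_of_mem_ker p hx.2]; simp⟩

theorem map_sub_one_sup :
    ((C ⊓ LinearMap.ker (σ - 1)) ⊔ (C ⊓ LinearMap.ker (normEnd p σ))).map (σ - 1) =
      (C ⊓ LinearMap.ker (normEnd p σ)).map (σ - 1) := by
  rw [Submodule.map_sup]
  have h2 : (C ⊓ LinearMap.ker (σ - 1)).map (σ - 1) = ⊥ := by
    rw [eq_bot_iff]
    rintro _ ⟨x, hx, rfl⟩
    exact LinearMap.mem_ker.mp hx.2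
  rw [h2, bot_sup_eq]

variable [Module.Free ℤ C] [Module.Finite ℤ C]

theorem relIndex_sup_ne_zero [hp : Fact p.Prime] (hσ : σ ^ p = 1) (hC : ∀ x ∈ C, σ x ∈ C) :
    ((C ⊓ LinearMap.ker (σ - 1)) ⊔ (C ⊓ LinearMap.ker (normEnd p σ))).toAddSubgroup.relIndex
      C.toAddSubgroup ≠ 0 := by
  have h1 := relIndex_smul_eq_pow C p hp.out.ne_zero
  have hle : (C.map ((p : ℤ) • (LinearMap.id : A →ₗ[ℤ] A))).toAddSubgroup ≤
      ((C ⊓ LinearMap.ker (σ - 1)) ⊔ (C ⊓ LinearMap.ker (normEnd p σ))).toAddSubgroup := by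
    rintro _ ⟨x, hx, rfl⟩
    have := smul_mem_sup C hσ hC hx
    simpa using this
  have hdvd := AddSubgroup.relIndex_dvd_of_le_left C.toAddSubgroup hle
  intro h0
  rw [h0, h1, zero_dvd_iff] at hdvd
  exact (pow_ne_zero _ hp.out.ne_zero) hdvd

end Relative

section Ranks

theorem free_of_le {K C : Submodule ℤ A} [Module.Free ℤ C] [Module.Finite ℤ C] (h : K ≤ C) :
    Module.Free ℤ K :=
  Module.Free.of_equiv (Submodule.comapSubtypeEquivOfLe h)

theorem finite_of_le {K C : Submodule ℤ A} [Module.Finite ℤ C] (h : K ≤ C) :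
    Module.Finite ℤ K :=
  Module.Finite.equiv (Submodule.comapSubtypeEquivOfLe h)

/-- Rank-nullity for the restriction of `g` to `C`. -/
theorem finrank_map_add_finrank_inf_ker (C : Submodule ℤ A) [Module.Finite ℤ C]
    (g : Module.End ℤ A) :
    finrank ℤ (C.map g) + finrank ℤ (C ⊓ LinearMap.ker g : Submodule ℤ A) = finrank ℤ C := by
  have h1 := Submodule.finrank_quotient_add_finrank (LinearMap.ker (g.domRestrict C))
  have h2 : finrank ℤ (C ⧸ LinearMap.ker (g.domRestrict C)) = finrank ℤ (C.map g) := by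
    rw [← LinearMap.range_domRestrict]
    exact (g.domRestrict C).quotKerEquivRange.finrank_eq
  have h3 : finrank ℤ (LinearMap.ker (g.domRestrict C)) =
      finrank ℤ (C ⊓ LinearMap.ker g : Submodule ℤ A) := by
    rw [LinearMap.ker_domRestrict, ← Submodule.map_comap_subtype,
      Submodule.finrank_map_subtype_eq]
  rw [h2, h3] at h1
  exact h1

/-- If `g` is injective on `K` then `g K` has the same rank as `K`. -/
theorem finrank_map_of_injOn (K : Submodule ℤ A) (g : Module.End ℤ A)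
    (hg : ∀ x ∈ K, g x = 0 → x = 0) : finrank ℤ (K.map g) = finrank ℤ K := by
  rw [← LinearMap.range_domRestrict]
  refine LinearMap.finrank_range_of_inj ?_
  rw [← LinearMap.ker_eq_bot, LinearMap.ker_eq_bot']
  intro x hx
  exact Subtype.ext (hg x x.2 hx)

end Ranks

section Main

variable {p : ℕ} [hp : Fact p.Prime] {σ : Module.End ℤ A} (C : Submodule ℤ A)
  [Module.Free ℤ C] [Module.Finite ℤ C]

omit [Module.Finite ℤ C] in
theorem eq_zero_of_mem_of_nsmul_eq_zero {x : A} (hx : x ∈ C) {n : ℕ} (hn : n ≠ 0)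
    (h : n • x = 0) : x = 0 := by
  have h' : (n : ℤ) • (⟨x, hx⟩ : C) = 0 := Subtype.ext (by simpa using h)
  have hn' : (n : ℤ) ≠ 0 := by exact_mod_cast hn
  exact congrArg Subtype.val ((smul_eq_zero.mp h').resolve_left hn')

include hp in
theorem finrank_fixed_add_finrank_ker_normEnd (hC : ∀ x ∈ C, σ x ∈ C) (hσ : σ ^ p = 1) :
    finrank ℤ (C ⊓ LinearMap.ker (σ - 1) : Submodule ℤ A) +
      finrank ℤ (C ⊓ LinearMap.ker (normEnd p σ) : Submodule ℤ A) = finrank ℤ C := by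
  rw [← finrank_map_add_finrank_inf_ker C (normEnd p σ)]
  congr 1
  have hX : (C ⊓ LinearMap.ker (σ - 1) : Submodule ℤ A) ≤ C := inf_le_left
  have : Module.Finite ℤ (C ⊓ LinearMap.ker (σ - 1) : Submodule ℤ A) := finite_of_le hX
  have hle1 : C.map (normEnd p σ) ≤ C ⊓ LinearMap.ker (σ - 1) := by
    rintro _ ⟨x, hx, rfl⟩
    exact ⟨normEnd_apply_mem_of_stable C hC hx, LinearMap.mem_ker.mpr (sub_one_normEnd_apply hσ x)⟩
  have : Module.Finite ℤ (C.map (normEnd p σ)) := finite_of_le (hle1.trans hX)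
  have hle2 : (C ⊓ LinearMap.ker (σ - 1)).map ((p : ℤ) • (LinearMap.id : A →ₗ[ℤ] A)) ≤
      C.map (normEnd p σ) := by
    rintro _ ⟨x, hx, rfl⟩
    exact ⟨x, hx.1, by rw [normEnd_apply_of_mem_ker p hx.2]; simp⟩
  have h3 : finrank ℤ ((C ⊓ LinearMap.ker (σ - 1)).map ((p : ℤ) • (LinearMap.id : A →ₗ[ℤ] A))) =
      finrank ℤ (C ⊓ LinearMap.ker (σ - 1) : Submodule ℤ A) := by
    refine finrank_map_of_injOn _ _ ?_
    intro x hx h
    refine eq_zero_of_mem_of_nsmul_eq_zero C hx.1 hp.out.ne_zero ?_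
    simpa using h
  refine le_antisymm ?_ (Submodule.finrank_mono hle1)
  rw [← h3]
  exact Submodule.finrank_mono hle2

end Main

section Final

variable {p : ℕ} [hp : Fact p.Prime] {σ : Module.End ℤ A} (C : Submodule ℤ A)
  [Module.Free ℤ C] [Module.Finite ℤ C]

include hp in
/-- `hq` of `B = (C ∩ ker D) + (C ∩ ker N)` for `(D, N)`: it is `[X : pX] = p ^ rank X`. -/
theorem hqL_sub_one_normEnd_sup :
    hqL (σ - 1) (normEnd p σ)
      ((C ⊓ LinearMap.ker (σ - 1)) ⊔ (C ⊓ LinearMap.ker (normEnd p σ))) =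
      p ^ finrank ℤ (C ⊓ LinearMap.ker (σ - 1) : Submodule ℤ A) := by
  have hX : (C ⊓ LinearMap.ker (σ - 1) : Submodule ℤ A) ≤ C := inf_le_left
  have : Module.Finite ℤ (C ⊓ LinearMap.ker (σ - 1) : Submodule ℤ A) := finite_of_le hX
  have : Module.Free ℤ (C ⊓ LinearMap.ker (σ - 1) : Submodule ℤ A) := free_of_le hX
  rw [hqL, map_normEnd_sup, sup_inf_ker_sub_one]
  exact relIndex_smul_eq_pow _ p hp.out.ne_zero

include hp in
/-- `hq` of `B = (C ∩ ker D) + (C ∩ ker N)` for `(N, D)`: it is `[M : D M] = p ^ b` with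
`(p - 1) * b = rank M`, `M = C ∩ ker N`. -/
theorem exists_hqL_normEnd_sub_one_sup (hC : ∀ x ∈ C, σ x ∈ C) (hσ : σ ^ p = 1) :
    ∃ b : ℕ, (p - 1) * b = finrank ℤ (C ⊓ LinearMap.ker (normEnd p σ) : Submodule ℤ A) ∧
      hqL (normEnd p σ) (σ - 1)
        ((C ⊓ LinearMap.ker (σ - 1)) ⊔ (C ⊓ LinearMap.ker (normEnd p σ))) = p ^ b := by
  have hM : (C ⊓ LinearMap.ker (normEnd p σ) : Submodule ℤ A) ≤ C := inf_le_left
  have : Module.Finite ℤ (C ⊓ LinearMap.ker (normEnd p σ) : Submodule ℤ A) := finite_of_le hM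
  have : Module.Free ℤ (C ⊓ LinearMap.ker (normEnd p σ) : Submodule ℤ A) := free_of_le hM
  -- `σ` restricted to `M`
  have hσM : ∀ x ∈ (C ⊓ LinearMap.ker (normEnd p σ) : Submodule ℤ A),
      σ x ∈ (C ⊓ LinearMap.ker (normEnd p σ) : Submodule ℤ A) :=
    fun x hx => ⟨hC x hx.1, apply_mem_ker_normEnd hσ hx.2⟩
  have hDM : ∀ x ∈ (C ⊓ LinearMap.ker (normEnd p σ) : Submodule ℤ A),
      (σ - 1) x ∈ (C ⊓ LinearMap.ker (normEnd p σ) : Submodule ℤ A) := by
    intro x hx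
    rw [LinearMap.sub_apply, Module.End.one_apply]
    exact Submodule.sub_mem _ (hσM x hx) hx
  have hinj : ∀ x ∈ (C ⊓ LinearMap.ker (normEnd p σ) : Submodule ℤ A), (σ - 1) x = 0 → x = 0 := by
    intro x hx h
    have h1 : normEnd p σ x = p • x := normEnd_apply_of_mem_ker p (LinearMap.mem_ker.mpr h)
    have h2 : normEnd p σ x = 0 := LinearMap.mem_ker.mp hx.2
    exact eq_zero_of_mem_of_nsmul_eq_zero C hx.1 hp.out.ne_zero (h1 ▸ h2)
  have hsum : ∑ i ∈ range p, (σ.restrict hσM) ^ i = 0 := by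
    ext x
    rw [LinearMap.sum_apply]
    simp only [LinearMap.zero_apply, ZeroMemClass.coe_zero]
    rw [AddSubmonoidClass.coe_finsetSum]
    have : ∀ i ∈ range p, ((((σ.restrict hσM) ^ i) x : _) : A) = (σ ^ i) (x : A) := by
      intro i _
      rw [Module.End.pow_restrict]
      rfl
    rw [Finset.sum_congr rfl this, ← LinearMap.sum_apply]
    exact LinearMap.mem_ker.mp x.2.2
  obtain ⟨b, hb, hdet⟩ := exists_natAbs_det_sub_one_eq p (σ.restrict hσM) hsum
  refine ⟨b, hb, ?_⟩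
  rw [hqL, map_sub_one_sup, sup_inf_ker_normEnd, relIndex_map_eq_natAbs_det _ (σ - 1) hDM hinj,
    ← hdet]
  congr 2

include hp in
/-- **Herbrand quotient of a lattice with an automorphism of prime order `p`** (relative form):
for a `σ`-stable subgroup `C` which is free of finite rank,
`[C ∩ ker D : N C] * p ^ b = p ^ a * [C ∩ ker N : D C]` with `a = rank (C ∩ ker D)` and
`a + (p - 1) * b = rank C`; both indices are finite. -/
theorem herbrand_prime_lattice (hC : ∀ x ∈ C, σ x ∈ C) (hσ : σ ^ p = 1) :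
    ∃ b : ℕ, finrank ℤ (C ⊓ LinearMap.ker (σ - 1) : Submodule ℤ A) + (p - 1) * b = finrank ℤ C ∧
      hqL (σ - 1) (normEnd p σ) C * p ^ b =
        p ^ finrank ℤ (C ⊓ LinearMap.ker (σ - 1) : Submodule ℤ A) *
          hqL (normEnd p σ) (σ - 1) C ∧
      hqL (σ - 1) (normEnd p σ) C ≠ 0 ∧ hqL (normEnd p σ) (σ - 1) C ≠ 0 := by
  obtain ⟨b, hb, hB1⟩ := exists_hqL_normEnd_sub_one_sup C hC hσ
  have hB0 := hqL_sub_one_normEnd_sup (p := p) (σ := σ) C
  have hrank := finrank_fixed_add_finrank_ker_normEnd C hC hσ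
  have hfin := relIndex_sup_ne_zero C hσ hC
  have hBC := sup_le_self (p := p) (σ := σ) C
  have hDB : ∀ x ∈ ((C ⊓ LinearMap.ker (σ - 1)) ⊔ (C ⊓ LinearMap.ker (normEnd p σ))),
      (σ - 1) x ∈ ((C ⊓ LinearMap.ker (σ - 1)) ⊔ (C ⊓ LinearMap.ker (normEnd p σ))) := by
    intro x hx
    exact Submodule.mem_sup_right ⟨sub_one_apply_mem_of_stable C hC (hBC hx),
      LinearMap.mem_ker.mpr (normEnd_sub_one_apply hσ x)⟩
  have hNB : ∀ x ∈ ((C ⊓ LinearMap.ker (σ - 1)) ⊔ (C ⊓ LinearMap.ker (normEnd p σ))),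
      normEnd p σ x ∈ ((C ⊓ LinearMap.ker (σ - 1)) ⊔ (C ⊓ LinearMap.ker (normEnd p σ))) := by
    intro x hx
    exact Submodule.mem_sup_left ⟨normEnd_apply_mem_of_stable C hC (hBC hx),
      LinearMap.mem_ker.mpr (sub_one_normEnd_apply hσ x)⟩
  have hDC : ∀ x ∈ C, (σ - 1) x ∈ C := fun x hx => sub_one_apply_mem_of_stable C hC hx
  have hNC : ∀ x ∈ C, normEnd p σ x ∈ C := fun x hx => normEnd_apply_mem_of_stable C hC hx
  have key := hqL_mul_hqL_of_relIndex_ne_zero (σ - 1) (normEnd p σ) (sub_one_mul_normEnd hσ)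
    (normEnd_mul_sub_one hσ) hBC hDB hNB hDC hNC hfin
  rw [hB0, hB1] at key
  refine ⟨b, by rw [hb]; exact hrank, key, ?_, ?_⟩
  · rw [hqL_ne_zero_iff_of_relIndex_ne_zero (σ - 1) (normEnd p σ) (sub_one_mul_normEnd hσ)
      hBC hNB hNC hfin, hB0]
    exact pow_ne_zero _ hp.out.ne_zero
  · rw [hqL_ne_zero_iff_of_relIndex_ne_zero (normEnd p σ) (σ - 1) (normEnd_mul_sub_one hσ)
      hBC hDB hDC hfin, hB1]
    exact pow_ne_zero _ hp.out.ne_zero

end Final

end Fermat.Agent.Herbrand
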